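import Mathlib
import Fermat.Prelude.Def_FLTPrelim_ModularRep
import Fermat.Agent.S13.H56.TorsionFinal
import Fermat.Agent.S05.AddSub

/-!
# S52, package E6 (criterion K4): reducibility mod 3 gives an integer root of a quartic

For an integral Weierstrass model `W` with `Δ ≠ 0`: if the mod-3 Galois representation is not
irreducible then the monic integer quartic
`y ^ 4 + 18 a y ^ 2 + 108 b y - 27 a ^ 2`, `a = -27 c₄`, `b = -54 c₆`, has an integer root.
-/

set_option autoImplicit false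

open WeierstrassCurve WeierstrassCurve.Affine WeierstrassCurve.Affine.Point Polynomial

namespace Fermat.Agent.S52.H44

/-- `AlgebraicClosure ℚ` is Galois over `ℚ` for the default `ℚ`-algebra structure of a
characteristic zero field (the one the frozen statement elaborates with). -/
theorem isGalois_ratBar : IsGalois ℚ (AlgebraicClosure ℚ) := by
  have h : (DivisionRing.toRatAlgebra : Algebra ℚ (AlgebraicClosure ℚ)) =
      AlgebraicClosure.instAlgebra ℚ := Subsingleton.elim _ _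
  rw [h]
  exact @IsAlgClosure.isGalois ℚ (AlgebraicClosure ℚ) _ _ (AlgebraicClosure.instAlgebra ℚ)
    inferInstance _

/-- The ladder polynomial `ladD W 1` is minus the 3-division polynomial. -/
theorem ladD_one_eq {R : Type*} [CommRing R] (W : WeierstrassCurve R) :
    Fermat.Agent.S13.H15.ladD W 1 =
      -(C 3 * X ^ 4 + C W.b₂ * X ^ 3 + C (3 * W.b₄) * X ^ 2 + C (3 * W.b₆) * X + C W.b₈) := by
  have h2 : Fermat.Agent.S13.H15.lad W 2 = Fermat.Agent.S13.H15.dblStep W (X, 1) := by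
    have := Fermat.Agent.S13.H15.lad_two_mul W 1
    simpa using this
  simp only [Fermat.Agent.S13.H15.ladD, Fermat.Agent.S13.H15.addD, h2,
    Fermat.Agent.S13.H15.lad_one, Fermat.Agent.S13.H15.dblStep]
  simp only [map_mul, map_ofNat]
  ring

/-- The quartic identity: the short-model 3-division quartic at `108 x + 9 b₂`. -/
theorem quartic_identity {R : Type*} [CommRing R] (W : WeierstrassCurve R) (x : R) :
    (108 * x + 9 * W.b₂) ^ 4 + 18 * (-27 * W.c₄) * (108 * x + 9 * W.b₂) ^ 2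
        + 108 * (-54 * W.c₆) * (108 * x + 9 * W.b₂) - 27 * (-27 * W.c₄) ^ 2
      = 45349632 * (3 * x ^ 4 + W.b₂ * x ^ 3 + 3 * W.b₄ * x ^ 2 + 3 * W.b₆ * x + W.b₈) := by
  simp only [WeierstrassCurve.c₄, WeierstrassCurve.c₆, WeierstrassCurve.b₂, WeierstrassCurve.b₄,
    WeierstrassCurve.b₆, WeierstrassCurve.b₈]
  ring

/-- A rational root of the 3-division polynomial of an integral model gives an integer root of
the short-model quartic. -/
theorem int_root_of_rat_root (W : WeierstrassCurve ℤ) (x₀ : ℚ)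
    (hx : 3 * x₀ ^ 4 + (W.b₂ : ℚ) * x₀ ^ 3 + 3 * (W.b₄ : ℚ) * x₀ ^ 2 + 3 * (W.b₆ : ℚ) * x₀
      + (W.b₈ : ℚ) = 0) :
    ∃ y : ℤ, y ^ 4 + 18 * (-27 * W.c₄) * y ^ 2 + 108 * (-54 * W.c₆) * y
      - 27 * (-27 * W.c₄) ^ 2 = 0 := by
  set y₀ : ℚ := 108 * x₀ + 9 * (W.b₂ : ℚ) with hy₀
  have key : y₀ ^ 4 + 18 * (-27 * (W.c₄ : ℚ)) * y₀ ^ 2 + 108 * (-54 * (W.c₆ : ℚ)) * y₀
      - 27 * (-27 * (W.c₄ : ℚ)) ^ 2 = 0 := by
    have h1 : y₀ ^ 4 + 18 * (-27 * (W.c₄ : ℚ)) * y₀ ^ 2 + 108 * (-54 * (W.c₆ : ℚ)) * y₀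
        - 27 * (-27 * (W.c₄ : ℚ)) ^ 2
        = 45349632 * (3 * x₀ ^ 4 + (W.b₂ : ℚ) * x₀ ^ 3 + 3 * (W.b₄ : ℚ) * x₀ ^ 2
          + 3 * (W.b₆ : ℚ) * x₀ + (W.b₈ : ℚ)) := by
      rw [hy₀]
      simp only [WeierstrassCurve.c₄, WeierstrassCurve.c₆, WeierstrassCurve.b₂,
        WeierstrassCurve.b₄, WeierstrassCurve.b₆, WeierstrassCurve.b₈]
      push_cast
      ring
    rw [h1, hx, mul_zero]
  have hint : IsIntegral ℤ y₀ := by
    refine ⟨X ^ 4 + (C (18 * (-27 * W.c₄)) * X ^ 2 + C (108 * (-54 * W.c₆)) * X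
      - C (27 * (-27 * W.c₄) ^ 2)), ?_, ?_⟩
    · apply Polynomial.monic_X_pow_add
      refine lt_of_le_of_lt (Polynomial.degree_sub_le _ _) ?_
      refine max_lt (lt_of_le_of_lt (Polynomial.degree_add_le _ _) (max_lt ?_ ?_)) ?_
      · refine lt_of_le_of_lt (Polynomial.degree_C_mul_X_pow_le 2 _) ?_
        exact_mod_cast (by norm_num : (2 : ℕ) < 4)
      · refine lt_of_le_of_lt (Polynomial.degree_C_mul_X_le _) ?_
        exact_mod_cast (by norm_num : (1 : ℕ) < 4)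
      · refine lt_of_le_of_lt Polynomial.degree_C_le ?_
        exact_mod_cast (by norm_num : (0 : ℕ) < 4)
    · simp only [eval₂_add, eval₂_sub, eval₂_mul, eval₂_pow, eval₂_X, eval₂_C]
      simp only [eq_intCast]
      push_cast
      linarith [key]
  obtain ⟨y, hy⟩ := IsIntegrallyClosed.isIntegral_iff.mp hint
  refine ⟨y, ?_⟩
  have hy' : (y : ℚ) = y₀ := by simpa using hy
  have : ((y ^ 4 + 18 * (-27 * W.c₄) * y ^ 2 + 108 * (-54 * W.c₆) * y
      - 27 * (-27 * W.c₄) ^ 2 : ℤ) : ℚ) = 0 := by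
    push_cast
    rw [hy']
    linarith [key]
  exact_mod_cast this

/-- Reducibility mod 3 gives a rational root of the 3-division polynomial. -/
theorem rat_root_of_not_irreducible (W : WeierstrassCurve ℤ) (hΔ : W.Δ ≠ 0)
    (h : ¬ W.ModRepIsIrreducible 3) :
    ∃ x₀ : ℚ, 3 * x₀ ^ 4 + (W.b₂ : ℚ) * x₀ ^ 3 + 3 * (W.b₄ : ℚ) * x₀ ^ 2 + 3 * (W.b₆ : ℚ) * x₀
      + (W.b₈ : ℚ) = 0 := by
  have h3 : Nat.Prime 3 := Nat.prime_three
  have h32 : (3 : ℕ) ≠ 2 := by norm_num
  have hΔE : ((W.map (Int.castRingHom ℚ))⁄(AlgebraicClosure ℚ)).Δ ≠ 0 := by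
    show ((W.map (Int.castRingHom ℚ)).map (algebraMap ℚ (AlgebraicClosure ℚ))).Δ ≠ 0
    rw [WeierstrassCurve.map_Δ, WeierstrassCurve.map_Δ]
    simpa using hΔ
  have hnt : Nontrivial (Submodule.torsionBy ℤ
      ((W.map (Int.castRingHom ℚ))⁄(AlgebraicClosure ℚ)).Point ((3 : ℕ) : ℤ)) :=
    Fermat.Agent.S13.H56.nontrivial_torsionBy _ hΔE h3 h32
  obtain ⟨hfin, hcard⟩ := Fermat.Agent.S13.H56.natCard_torsionBy_le
    ((W.map (Int.castRingHom ℚ))⁄(AlgebraicClosure ℚ)) h3 h32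
  unfold WeierstrassCurve.ModRepIsIrreducible Affine.Point.GaloisRepIsIrreducible at h
  have h' : ¬ ∀ N : _, Affine.Point.IsGaloisStable ℚ N → N = ⊥ ∨ N = ⊤ :=
    fun hall => h ⟨hnt, hall⟩
  push Not at h'
  obtain ⟨N, hst, hbot, htop⟩ := h'
  have hdim2 : Module.finrank (ZMod 3) (Submodule.torsionBy ℤ
      ((W.map (Int.castRingHom ℚ))⁄(AlgebraicClosure ℚ)).Point ((3 : ℕ) : ℤ)) ≤ 2 :=
    Fermat.Agent.S13.H56.finrank_le_two_of_natCard_le _ hcard
  have hlt : Module.finrank (ZMod 3) N < Module.finrank (ZMod 3) (Submodule.torsionBy ℤ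
      ((W.map (Int.castRingHom ℚ))⁄(AlgebraicClosure ℚ)).Point ((3 : ℕ) : ℤ)) :=
    Submodule.finrank_lt htop
  obtain ⟨T, hTN, hT0⟩ := Submodule.exists_mem_ne_zero_of_ne_bot hbot
  have hT0' : (⟨T, hTN⟩ : N) ≠ 0 := fun h0 => hT0 (congrArg Subtype.val h0)
  have hpos : 0 < Module.finrank (ZMod 3) N :=
    Module.finrank_pos_iff_exists_ne_zero.mpr ⟨⟨T, hTN⟩, hT0'⟩
  have hone : Module.finrank (ZMod 3) N = 1 := by omega
  have hspan : ∀ w : N, ∃ c : ZMod 3, c • (⟨T, hTN⟩ : N) = w :=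
    (finrank_eq_one_iff_of_nonzero' _ hT0').mp hone
  -- `3 • T = 0` and hence `T + T = -T`
  have h3T : T + T + T = 0 := by
    have h1 : (3 : ZMod 3) • T = 0 := by
      have h30 : (3 : ZMod 3) = 0 := by decide
      rw [h30, zero_smul]
    have h2 : (3 : ZMod 3) • T = T + T + T := by
      have : (3 : ZMod 3) = 1 + 1 + 1 := by decide
      rw [this, add_smul, add_smul, one_smul]
    rw [← h2, h1]
  -- every Galois conjugate of `T` is `T` or `-T`
  have hconj : ∀ σ : AlgebraicClosure ℚ ≃ₐ[ℚ] AlgebraicClosure ℚ, σ • T = T ∨ σ • T = -T := by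
    intro σ
    obtain ⟨c, hc⟩ := hspan ⟨σ • T, hst σ T hTN⟩
    have hc' : c • T = σ • T := congrArg Subtype.val hc
    have hcases : ∀ c : ZMod 3, c = 0 ∨ c = 1 ∨ c = 2 := by decide
    rcases hcases c with rfl | rfl | rfl
    · exfalso
      rw [zero_smul] at hc'
      exact hT0 ((smul_eq_zero_iff_eq σ).mp hc'.symm)
    · left; rw [← hc', one_smul]
    · right
      rw [← hc']
      have : (2 : ZMod 3) • T = T + T := by
        have : (2 : ZMod 3) = 1 + 1 := by decide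
        rw [this, add_smul, one_smul]
      rw [this]
      exact eq_neg_of_add_eq_zero_left h3T
  -- pass to points
  have hP0 : (T : ((W.map (Int.castRingHom ℚ))⁄(AlgebraicClosure ℚ)).Point) ≠ 0 :=
    fun h0 => hT0 (Subtype.ext h0)
  have h3P : (2 * 1 + 1) • (T : ((W.map (Int.castRingHom ℚ))⁄(AlgebraicClosure ℚ)).Point) = 0 := by
    have := T.2
    rw [Submodule.mem_torsionBy_iff, Nat.cast_smul_eq_nsmul ℤ] at this
    exact this
  obtain ⟨x, y, hxy, hP⟩ := Fermat.Agent.S05.exists_some_of_ne_zero hP0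
  have hfix : ∀ σ : AlgebraicClosure ℚ ≃ₐ[ℚ] AlgebraicClosure ℚ, σ x = x := by
    intro σ
    have h1 : Fermat.Agent.S05.xOf
        (σ • (T : ((W.map (Int.castRingHom ℚ))⁄(AlgebraicClosure ℚ)).Point)) = σ x := by
      rw [hP]; rfl
    have h2 : Fermat.Agent.S05.xOf
        (T : ((W.map (Int.castRingHom ℚ))⁄(AlgebraicClosure ℚ)).Point) = x := by
      rw [hP]; rfl
    rcases hconj σ with h | h
    · have h' : σ • (T : ((W.map (Int.castRingHom ℚ))⁄(AlgebraicClosure ℚ)).Point) = T :=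
        congrArg Subtype.val h
      rw [h', h2] at h1
      exact h1.symm
    · have h' : σ • (T : ((W.map (Int.castRingHom ℚ))⁄(AlgebraicClosure ℚ)).Point) = -T :=
        congrArg Subtype.val h
      rw [h', Fermat.Agent.S05.xOf_neg, h2] at h1
      exact h1.symm
  have hgal : IsGalois ℚ (AlgebraicClosure ℚ) := isGalois_ratBar
  obtain ⟨x₀, rfl⟩ := (InfiniteGalois.mem_range_algebraMap_iff_fixed x).mpr hfix
  rw [hP] at h3P
  have hev := (Fermat.Agent.S13.H56.ladLink _ 1 _ y hxy).mp h3P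
  have hmap : Fermat.Agent.S13.H15.ladD ((W.map (Int.castRingHom ℚ))⁄(AlgebraicClosure ℚ)) 1
      = ((Fermat.Agent.S13.H15.ladD W 1).map (Int.castRingHom ℚ)).map
          (algebraMap ℚ (AlgebraicClosure ℚ)) := by
    show Fermat.Agent.S13.H15.ladD
      ((W.map (Int.castRingHom ℚ)).map (algebraMap ℚ (AlgebraicClosure ℚ))) 1 = _
    rw [Fermat.Agent.S13.H15.ladD_map, Fermat.Agent.S13.H15.ladD_map]
  rw [hmap, Polynomial.eval_map_apply] at hev
  have hev' : ((Fermat.Agent.S13.H15.ladD W 1).map (Int.castRingHom ℚ)).eval x₀ = 0 :=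
    (algebraMap ℚ (AlgebraicClosure ℚ)).injective (by rw [hev, _root_.map_zero])
  refine ⟨x₀, ?_⟩
  rw [ladD_one_eq] at hev'
  simp only [Polynomial.map_neg, Polynomial.map_add, Polynomial.map_mul, Polynomial.map_pow,
    Polynomial.map_C, Polynomial.map_X, eval_neg, eval_add, eval_mul, eval_pow, eval_C,
    eval_X] at hev'
  simp only [eq_intCast] at hev'
  push_cast at hev'
  linarith [hev']

/-- **Criterion (K4).** If the mod-3 representation of an integral model with `Δ ≠ 0` is not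
irreducible, the short-model quartic has an integer root. -/
theorem int_root_of_not_irreducible (W : WeierstrassCurve ℤ) (hΔ : W.Δ ≠ 0)
    (h : ¬ W.ModRepIsIrreducible 3) :
    ∃ y : ℤ, y ^ 4 + 18 * (-27 * W.c₄) * y ^ 2 + 108 * (-54 * W.c₆) * y
      - 27 * (-27 * W.c₄) ^ 2 = 0 := by
  obtain ⟨x₀, hx₀⟩ := rat_root_of_not_irreducible W hΔ h
  exact int_root_of_rat_root W x₀ hx₀

/-- Contrapositive form: no integer root of the quartic implies irreducibility mod 3. -/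
theorem modRepIsIrreducible_three_of_no_int_root (W : WeierstrassCurve ℤ) (hΔ : W.Δ ≠ 0)
    (h : ∀ y : ℤ, y ^ 4 + 18 * (-27 * W.c₄) * y ^ 2 + 108 * (-54 * W.c₆) * y
      - 27 * (-27 * W.c₄) ^ 2 ≠ 0) :
    W.ModRepIsIrreducible 3 := by
  by_contra hirr
  obtain ⟨y, hy⟩ := int_root_of_not_irreducible W hΔ hirr
  exact h y hy

end Fermat.Agent.S52.H44
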