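import Mathlib
import Fermat.Prelude.Def_FLTPrelim_ModularRep
import Fermat.Agent.S52.H44.IrredCriterion
import Fermat.Agent.S52.H62.Model
import Fermat.Agent.S52.H98.ShortForm
import Fermat.Agent.S52.H58.HRQuartic

/-!
# S52 (3-5 switch): the final assembly from an abstract one-parameter family

`result_of_family` proves the frozen statement of S52 for a semistable integral model `W` from a
one-parameter family of invariants given by three integer polynomials `r, s, d` (for the Klein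
pencil: `r(n) = Rh(-c₄, -c₆; n, M)`, `s(n) = Sh(-c₄, -c₆; n, M)`, `d(n) = Dh(-c₄, -c₆; n, M)`)
together with

* degree / leading coefficient / syzygy / base point data of the family,
* `hnoroot`: the 3-division quartic of the family has no root in `ℚ[n]`            (I-a),
* `haway`: `r(n)` and `s(n)` have no common prime factor outside `6 M`              (K5),
* `hA`: the point counts over `𝔽_ℓ` (`ℓ ≥ 7`) are congruent modulo `5`        (Theorem A').

The curve `W'` is the model with the same `a₁, a₂, a₃` and `c₄ = -r(n)`, `c₆ = -s(n)` for a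
suitable `n ≡ 1 mod M`.
-/

set_option autoImplicit false

open WeierstrassCurve Polynomial

namespace Fermat.Agent.S52.H44

/-- The final assembly of S52 from an abstract family. -/
theorem result_of_family (W : WeierstrassCurve ℤ) (hΔ : W.Δ ≠ 0) (hW : W.IsSemistableModel)
    (M : ℕ) (hMpos : 0 < M) (hM6 : (2 ^ 7 * 3 ^ 4 : ℤ) ∣ (M : ℤ))
    (r s d : ℤ[X]) (hr : r.natDegree ≤ 20) (hs : s.natDegree ≤ 30)
    (hr20 : r.coeff 20 = -W.c₄) (hs30 : s.coeff 30 = -W.c₆)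
    (hsyz : s ^ 2 + r ^ 3 = C (W.c₆ ^ 2 - W.c₄ ^ 3) * d ^ 5)
    (hr1 : (M : ℤ) ∣ r.eval 1 + W.c₄) (hs1 : (M : ℤ) ∣ s.eval 1 + W.c₆)
    (hnoroot : ∀ Q : ℚ[X],
      Q ^ 4 + 18 * (27 * r).map (Int.castRingHom ℚ) * Q ^ 2
        + 108 * (54 * s).map (Int.castRingHom ℚ) * Q
        - 27 * ((27 * r).map (Int.castRingHom ℚ)) ^ 2 ≠ 0)
    (haway : ∀ p : ℕ, p.Prime → p ≠ 2 → p ≠ 3 → ¬ (p : ℤ) ∣ (M : ℤ) → ∀ n : ℤ,
      (p : ℤ) ∣ r.eval n → ¬ (p : ℤ) ∣ s.eval n)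
    (hA : ∀ ℓ : ℕ, ℓ.Prime → 7 ≤ ℓ → ∀ n : ℤ, ¬ (ℓ : ℤ) ∣ W.Δ → ¬ (ℓ : ℤ) ∣ d.eval n →
      (5 : ℤ) ∣
        (Nat.card (⟨0, 0, 0, -27 * ((W.c₄ : ℤ) : ZMod ℓ), -54 * ((W.c₆ : ℤ) : ZMod ℓ)⟩ :
          WeierstrassCurve (ZMod ℓ)).toAffine.Point : ℤ) -
        (Nat.card (⟨0, 0, 0, -27 * ((-r.eval n : ℤ) : ZMod ℓ),
          -54 * ((-s.eval n : ℤ) : ZMod ℓ)⟩ : WeierstrassCurve (ZMod ℓ)).toAffine.Point : ℤ)) :
    ∃ W' : WeierstrassCurve ℤ, W'.Δ ≠ 0 ∧ W'.IsSemistableModel ∧ W'.ModRepIsIrreducible 3 ∧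
      ∀ ℓ : ℕ, ℓ.Prime → W.IsGoodPrimeFor ℓ → W'.IsGoodPrimeFor ℓ → ℓ ≠ 5 →
        (5 : ℤ) ∣ (W'.apOfModel ℓ - W.apOfModel ℓ) := by
  have hcrel := W.c_relation
  have hne : W.c₆ ^ 2 - W.c₄ ^ 3 ≠ 0 := by
    intro h
    apply hΔ
    have : (1728 : ℤ) * W.Δ = 0 := by rw [hcrel]; linarith
    simpa using this
  -- `d ≠ 0`, from the coefficient of `X ^ 60` in the syzygy
  have hd : d ≠ 0 := by
    rintro rfl
    have h60 : (s ^ 2 + r ^ 3).coeff 60 = W.c₆ ^ 2 - W.c₄ ^ 3 := by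
      rw [coeff_add, show (60 : ℕ) = 2 * 30 by norm_num, coeff_pow_of_natDegree_le hs,
        show (2 * 30 : ℕ) = 3 * 20 by norm_num, coeff_pow_of_natDegree_le hr, hr20, hs30]
      ring
    rw [hsyz] at h60
    simp at h60
    exact hne h60.symm
  -- the polynomials of the quartic
  have ha : (27 * r).natDegree ≤ 20 := by
    have : (27 * r : ℤ[X]) = C (27 : ℤ) * r := by simp
    rw [this]
    exact (natDegree_C_mul_le _ _).trans hr
  have hb : (54 * s).natDegree ≤ 30 := by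
    have : (54 * s : ℤ[X]) = C (54 : ℤ) * s := by simp
    rw [this]
    exact (natDegree_C_mul_le _ _).trans hs
  have ha20 : (27 * r : ℤ[X]).coeff 20 = 27 * -W.c₄ := by
    have : (27 * r : ℤ[X]) = C (27 : ℤ) * r := by simp
    rw [this, coeff_C_mul, hr20]
  have hb30 : (54 * s : ℤ[X]).coeff 30 = 54 * -W.c₆ := by
    have : (54 * s : ℤ[X]) = C (54 : ℤ) * s := by simp
    rw [this, coeff_C_mul, hs30]
  have hdisc : 4 * ((27 * r : ℤ[X]).coeff 20) ^ 3 + 27 * ((54 * s : ℤ[X]).coeff 30) ^ 2 ≠ 0 := by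
    rw [ha20, hb30]
    intro h
    apply hne
    have : (78732 : ℤ) * (W.c₆ ^ 2 - W.c₄ ^ 3) = 0 := by linarith
    simpa using this
  -- a bound beyond the roots of `d`
  obtain ⟨B, hB⟩ : ∃ B : ℤ, ∀ n : ℤ, B ≤ n → d.eval n ≠ 0 := by
    have hfin : Set.Finite {x : ℤ | d.IsRoot x} := Polynomial.finite_setOfPred_isRoot hd
    obtain ⟨B0, hB0⟩ := hfin.bddAbove
    refine ⟨B0 + 1, fun n hn h0 => ?_⟩
    have : n ≤ B0 := hB0 h0
    omega
  -- Hilbert irreducibility (root version)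
  obtain ⟨n, hnB, hn1, hnr⟩ := Fermat.Agent.S52.H58.exists_no_int_root_quartic (27 * r) (54 * s)
    ha hb hdisc (fun Q _ => hnoroot Q) M hMpos 1 B
  have hdn : d.eval n ≠ 0 := hB n hnB
  have hMn : (M : ℤ) ∣ n - 1 := (Int.modEq_iff_dvd.mp hn1.symm)
  -- congruences of the new invariants
  have h4M : (M : ℤ) ∣ -r.eval n - W.c₄ := by
    have h1 : (M : ℤ) ∣ r.eval n - r.eval 1 := hMn.trans (sub_dvd_eval_sub n 1 r)
    have : -r.eval n - W.c₄ = -((r.eval n - r.eval 1) + (r.eval 1 + W.c₄)) := by ring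
    rw [this]
    exact (dvd_add h1 hr1).neg_right
  have h6M : (M : ℤ) ∣ -s.eval n - W.c₆ := by
    have h1 : (M : ℤ) ∣ s.eval n - s.eval 1 := hMn.trans (sub_dvd_eval_sub n 1 s)
    have : -s.eval n - W.c₆ = -((s.eval n - s.eval 1) + (s.eval 1 + W.c₆)) := by ring
    rw [this]
    exact (dvd_add h1 hs1).neg_right
  have h4 : (2 ^ 7 * 3 ^ 4 : ℤ) ∣ -r.eval n - W.c₄ := hM6.trans h4M
  have h6 : (2 ^ 6 * 3 ^ 4 : ℤ) ∣ -s.eval n - W.c₆ :=
    (Dvd.intro_left 2 (by norm_num : (2 : ℤ) * (2 ^ 6 * 3 ^ 4) = 2 ^ 7 * 3 ^ 4)).trans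
      (hM6.trans h6M)
  obtain ⟨W', -, -, -, hc4, hc6, hred2, hred3⟩ :=
    Fermat.Agent.S52.H62.exists_model W (-r.eval n) (-s.eval n) h4 h6
  -- the discriminant of `W'`
  have hsyzn : s.eval n ^ 2 + r.eval n ^ 3 = (W.c₆ ^ 2 - W.c₄ ^ 3) * d.eval n ^ 5 := by
    have := congrArg (Polynomial.eval n) hsyz
    simpa using this
  have hΔ' : W'.Δ = W.Δ * d.eval n ^ 5 := by
    have h1 := W'.c_relation
    rw [hc4, hc6] at h1
    have : (1728 : ℤ) * W'.Δ = 1728 * (W.Δ * d.eval n ^ 5) := by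
      rw [h1]
      linear_combination -hsyzn - d.eval n ^ 5 * hcrel
    exact mul_left_cancel₀ (by norm_num) this
  have hΔ'ne : W'.Δ ≠ 0 := by
    rw [hΔ']
    exact mul_ne_zero hΔ (pow_ne_zero 5 hdn)
  refine ⟨W', hΔ'ne, ?_, ?_, ?_⟩
  · -- semistability
    refine Fermat.Agent.S52.H62.isSemistableModel_of hW hred2 hred3 (M : ℤ)
      (by rw [hc4]; exact h4M) (by rw [hc6]; exact h6M) ?_
    intro p hp hp2 hp3 hpM hpΔ' hpc4
    have hpr : (p : ℤ) ∣ r.eval n := by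
      rw [hc4] at hpc4
      exact (dvd_neg.mp hpc4)
    have hps : (p : ℤ) ∣ s.eval n := by
      have h1 := W'.c_relation
      rw [hc4, hc6] at h1
      have hsq : (p : ℤ) ∣ s.eval n ^ 2 := by
        have : s.eval n ^ 2 = -(r.eval n) ^ 3 - 1728 * W'.Δ := by linarith
        rw [this]
        exact dvd_sub (dvd_neg.mpr (dvd_pow hpr (by norm_num : (3 : ℕ) ≠ 0))) (hpΔ'.mul_left _)
      exact (Nat.prime_iff_prime_int.mp hp).dvd_of_dvd_pow hsq
    exact haway p hp hp2 hp3 hpM n hpr hps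
  · -- irreducibility mod 3
    apply modRepIsIrreducible_three_of_no_int_root W' hΔ'ne
    intro y
    have := hnr y
    rw [hc4, hc6]
    simpa [mul_comm, mul_left_comm, mul_assoc] using this
  · -- the congruences
    intro ℓ hℓ hgood hgood' hℓ5
    by_cases hℓ2 : ℓ = 2
    · subst hℓ2
      exact Fermat.Agent.S52.H62.five_dvd_apOfModel_sub_of_reductionMod_eq hred2
    by_cases hℓ3 : ℓ = 3
    · subst hℓ3
      exact Fermat.Agent.S52.H62.five_dvd_apOfModel_sub_of_reductionMod_eq hred3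
    have hℓ7 : 7 ≤ ℓ := by
      have h2 := hℓ.two_le
      by_contra hlt
      push Not at hlt
      interval_cases ℓ <;> simp_all (config := { decide := true })
    have : Fact ℓ.Prime := ⟨hℓ⟩
    have hgΔ : ¬ (ℓ : ℤ) ∣ W.Δ := hgood
    have hgd : ¬ (ℓ : ℤ) ∣ d.eval n := by
      intro h
      apply hgood'
      show (ℓ : ℤ) ∣ W'.Δ
      rw [hΔ']
      exact (dvd_pow h (by norm_num : (5 : ℕ) ≠ 0)).mul_left _
    have h := hA ℓ hℓ hℓ7 n hgΔ hgd
    refine Fermat.Agent.S52.H98.dvd_apOfModel_sub_of_short W W' ℓ (by omega) 5 ?_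
    rw [hc4, hc6]
    exact h

end Fermat.Agent.S52.H44
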