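import Fermat.Agent.S52.H93.KleinAway

/-!
# S52 / E0: the Klein form `f` along the line `n • v + m • w v`

`kDh A B n m` is the universal integer form with
`kf (n • v + m • w v) = kf v * kDh (kH v) (kT v) n m`
for Klein's forms `kf, kH, kT` and `w = (kwx, kwy) = (f_y, -f_x)` of `H93/KleinAway.lean`
(the third line identity `lineF` of the family interface; `lineH`, `lineT` are
`H93.kH_line`, `H93.kT_line`).
-/

set_option autoImplicit false

namespace Fermat.Agent.S52.H44

open Fermat.Agent.S52.H93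

section Defs

variable {R : Type*} [CommRing R]

/-- The quotient `f (n • v + m • w v) / f v` as a polynomial in `A = H v`, `B = T v`. -/
def kDh (A B n m : R) : R :=
    (1) * n ^ 12
    + (0) * n ^ 11 * m
    + (66 * A) * n ^ 10 * m ^ 2
    + (-440 * B) * n ^ 9 * m ^ 3
    + (-1485 * A ^ 2) * n ^ 8 * m ^ 4
    + (3168 * A * B) * n ^ 7 * m ^ 5
    + (-5940 * A ^ 3 - 10560 * B ^ 2) * n ^ 6 * m ^ 6
    + (-4752 * A ^ 2 * B) * n ^ 5 * m ^ 7
    + (-66825 * A ^ 4 - 63360 * A * B ^ 2) * n ^ 4 * m ^ 8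
    + (142560 * A ^ 3 * B + 140800 * B ^ 3) * n ^ 3 * m ^ 9
    + (133650 * A ^ 5 + 133056 * A ^ 2 * B ^ 2) * n ^ 2 * m ^ 10
    + (-61560 * A ^ 4 * B - 61440 * A * B ^ 3) * n * m ^ 11
    + (91125 * A ^ 6 + 193536 * A ^ 3 * B ^ 2 + 102400 * B ^ 4) * m ^ 12

theorem kDh_zero (A B n : R) : kDh A B n 0 = n ^ 12 := by
  unfold kDh
  ring

theorem kDh_one_zero (A B : R) : kDh A B 1 0 = 1 := by
  rw [kDh_zero, one_pow]

theorem map_kDh {S : Type*} [CommRing S] (φ : R →+* S) (A B n m : R) :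
    φ (kDh A B n m) = kDh (φ A) (φ B) (φ n) (φ m) := by
  simp only [kDh, map_add, map_sub, map_mul, map_pow, map_neg, map_ofNat, map_one, map_zero]

/-- **lineF.** -/
theorem kf_line (x y n m : R) :
    kf (n * x + m * kwx x y) (n * y + m * kwy x y) = kf x y * kDh (kH x y) (kT x y) n m := by
  simp only [kDh, kf, kH, kT, kwx, kwy]
  ring

end Defs

end Fermat.Agent.S52.H44
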